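/-
S33lib / F / ConnOrder  (helper2)  — Project LSp, block (G4-F).

The single-centre, inertia-stable form of FF-F, with **connectedness**:
coordinates `τ : Γ → 𝔪_A^g` on a FINITE subgroup `Γ ≤ J` which is stable under the inertia group
`I_A` only (no `G_ℚ`-stability, no decomposition group, no centres), injective, inertia-equivariant,
with a group law which is `A0`-analytic in the coordinates, give a CONNECTED Hopf order
`O : HopfOrder A ℓ (A0 A) (IA A) Γ` (`IsConnectedOrder O`: every function of the order is constant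
modulo `𝔪_A`).

* `aeval_sub_val_lt_one`                       : polynomials over `A0` are constant mod `𝔪_A` on
                                                 residue classes;
* `exists_connected_hopfOrder_of_coords`       : inputs modulo every `d ≠ 0` of `A0`;
* `exists_connected_hopfOrder_of_analytic`     : inputs as `A0Analytic` functions (Iface notion).
-/
import Fermat.Agent.S33lib.Iface
import Fermat.Agent.S19lib.F.JLevel

set_option autoImplicit false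
set_option linter.unusedSectionVars false
set_option linter.style.haveILetI false

noncomputable section

namespace Fermat.Agent.S33lib.F

open Fermat.Agent.S19lib Fermat.Agent.S19lib.F MvPolynomial

local notation "Qb" => AlgebraicClosure ℚ
local notation "GQ" => (AlgebraicClosure ℚ ≃ₐ[ℚ] AlgebraicClosure ℚ)

/-! ### polynomials over `A0` are constant modulo `𝔪_A` on residue classes -/

section Eval

variable {K : Type*} [Field K] {A : ValuationSubring K} {G : Type*} [Group G]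
  [MulSemiringAction G K] {ι : Type*}

theorem aeval_sub_val_lt_one (P : MvPolynomial ι (fixedRing A G)) {v w : ι → K}
    (hv : ∀ i, v i ∈ A) (hw : ∀ i, w i ∈ A) (hvw : ∀ i, A.valuation (v i - w i) < 1) :
    A.valuation (aeval v P - aeval w P) < 1 := by
  let j : fixedRing A G →+* A :=
    Subring.inclusion (fun a (ha : a ∈ fixedRing A G) => ha.1 : fixedRing A G ≤ A.toSubring)
  let I : Ideal A := IsLocalRing.maximalIdeal A
  let v' : ι → A := fun i => ⟨v i, hv i⟩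
  let w' : ι → A := fun i => ⟨w i, hw i⟩
  have e1 : aeval v P = A.subtype (eval₂ j v' P) := by
    rw [aeval_def, eval₂_comp_left]; rfl
  have e2 : aeval w P = A.subtype (eval₂ j w' P) := by
    rw [aeval_def, eval₂_comp_left]; rfl
  have hmk : (Ideal.Quotient.mk I) ∘ v' = (Ideal.Quotient.mk I) ∘ w' := by
    funext i
    apply Ideal.Quotient.eq.mpr
    have h : A.valuation ((v' i - w' i : A) : K) < 1 := hvw i
    exact (A.valuation_lt_one_iff _).2 h
  have h3 : Ideal.Quotient.mk I (eval₂ j v' P) = Ideal.Quotient.mk I (eval₂ j w' P) := by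
    rw [eval₂_comp_left (Ideal.Quotient.mk I) j v' P, eval₂_comp_left (Ideal.Quotient.mk I) j w' P,
      hmk]
  have h4 := (A.valuation_lt_one_iff _).1 (Ideal.Quotient.eq.mp h3)
  rw [e1, e2]
  exact h4

end Eval

/-! ### the inertia action on an inertia-stable subgroup -/

section Act

variable {J : Type} [AddCommGroup J] [DistribMulAction GQ J]

/-- the action of a subgroup `U ≤ G_ℚ` on a `U`-stable subgroup of `J` -/
@[reducible] def subActOf (U : Subgroup GQ) (Γ : AddSubgroup J)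
    (hst : ∀ σ ∈ U, ∀ x ∈ Γ, σ • x ∈ Γ) : DistribMulAction U Γ where
  smul σ x := ⟨(σ : GQ) • (x : J), hst σ.1 σ.2 x x.2⟩
  one_smul x := Subtype.ext (one_smul GQ (x : J))
  mul_smul σ τ x := Subtype.ext (mul_smul (σ : GQ) (τ : GQ) (x : J))
  smul_zero σ := Subtype.ext (smul_zero (σ : GQ))
  smul_add σ x y := Subtype.ext (smul_add (σ : GQ) (x : J) (y : J))

end Act

section Main

variable {ℓ : ℕ} [Fact ℓ.Prime] (A : ValuationSubring Qb) (hA : A.LiesOverPrime ℓ)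
  {J : Type} [AddCommGroup J] [DistribMulAction GQ J] (Γ : AddSubgroup J) [Finite Γ]
  (hst : ∀ σ ∈ IA A, ∀ x ∈ Γ, σ • x ∈ Γ) {g : ℕ} (τ : J → Fin g → Qb)

/-- the single-fibre coordinates on `Γ` -/
def coordsOne (τ_smul : ∀ σ ∈ IA A, ∀ x ∈ Γ, ∀ i, τ (σ • x) i = σ (τ x i))
    (τ_mem : ∀ x ∈ Γ, ∀ i, τ x i ∈ A)
    (τ_inj : ∀ x ∈ Γ, ∀ y ∈ Γ, τ x = τ y → x = y) :
    @Coords Qb _ A (IA A) _ _ Γ Unit (subActOf (IA A) Γ hst).toMulAction g :=
  letI := subActOf (IA A) Γ hst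
  { c := fun _ => ()
    c_smul := fun _ _ => rfl
    τ := fun x => τ (x : J)
    τ_smul := fun σ x i => τ_smul σ.1 σ.2 (x : J) x.2 i
    τ_mem := fun x i => τ_mem (x : J) x.2 i
    τ_inj := fun x y _ h2 => Subtype.ext (τ_inj (x : J) x.2 (y : J) y.2 h2) }

include hA hst in
/-- **FF-F, single centre, inertia-stable `Γ`, with connectedness** (inputs modulo every `d ≠ 0`
of `A0`). -/
theorem exists_connected_hopfOrder_of_coords
    (τ_smul : ∀ σ ∈ IA A, ∀ x ∈ Γ, ∀ i, τ (σ • x) i = σ (τ x i))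
    (τ_mem : ∀ x ∈ Γ, ∀ i, τ x i ∈ mSet A)
    (τ_inj : ∀ x ∈ Γ, ∀ y ∈ Γ, τ x = τ y → x = y)
    (hadd : ∀ d ∈ A0 A, d ≠ 0 → ∃ Φ : Fin g → MvPolynomial (Fin g ⊕ Fin g) Qb,
      (∀ i m, (Φ i).coeff m ∈ A0 A) ∧ ∀ x ∈ Γ, ∀ x' ∈ Γ, ∀ i, ∃ a ∈ A,
        τ (x + x') i - MvPolynomial.eval (Sum.elim (τ x) (τ x')) (Φ i) = d * a)
    (hneg : ∀ d ∈ A0 A, d ≠ 0 → ∃ Φ : Fin g → MvPolynomial (Fin g) Qb,
      (∀ i m, (Φ i).coeff m ∈ A0 A) ∧ ∀ x ∈ Γ, ∀ i, ∃ a ∈ A,
        τ (-x) i - MvPolynomial.eval (τ x) (Φ i) = d * a) :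
    ∃ O : HopfOrder A ℓ (A0 A) (IA A) Γ, IsConnectedOrder O := by
  classical
  letI : Fintype Γ := Fintype.ofFinite Γ
  letI := subActOf (IA A) Γ hst
  have τ_memA : ∀ x ∈ Γ, ∀ i, τ x i ∈ A := fun x hx i =>
    (A.valuation_le_one_iff _).1 (le_of_lt (τ_mem x hx i))
  let T : Coords A (IA A) Γ Unit g := coordsOne A Γ hst τ τ_smul τ_memA τ_inj
  have hD : T.D ∈ A0 A := (mem_fixedRing_iff_mem_A0 A _).1 T.D_mem_fixedRing
  have hDD : T.D * T.D ∈ A0 A := (A0 A).mul_mem hD hD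
  have hDD0 : T.D * T.D ≠ 0 := mul_ne_zero T.D_ne_zero T.D_ne_zero
  have hℓ : ℓ.Prime := Fact.out
  have hℓA : ((ℓ : ℕ) : Qb) ∈ A :=
    (A.valuation_le_one_iff _).1 (le_of_lt ((A.mem_nonunits_iff).1 hA))
  have : Algebra.IsAlgebraic ℚ Qb := AlgebraicClosure.isAlgebraic ℚ
  have hl : ∀ a : Qb, ∃ n : ℕ, ((ℓ : ℕ) : Qb) ^ n * a ∈ A := exists_pow_mul_mem A hℓ hA
  have haddT : T.AddApprox (T.D * T.D) := by
    intro c₁ c₂
    obtain ⟨Φ, hΦc, hΦ⟩ := hadd _ hDD hDD0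
    choose Q hQ using fun i => exists_typed_of_coeff_mem_A0 A (Φ i) (hΦc i)
    refine ⟨Q, fun x x' _ _ i => ?_⟩
    obtain ⟨a, ha, h⟩ := hΦ (x : J) x.2 (x' : J) x'.2 i
    refine ⟨a, ha, ?_⟩
    rw [hQ]
    exact h
  have hnegT : T.NegApprox T.D := by
    intro c₁
    obtain ⟨Φ, hΦc, hΦ⟩ := hneg _ hD T.D_ne_zero
    choose Q hQ using fun i => exists_typed_of_coeff_mem_A0 A (Φ i) (hΦc i)
    refine ⟨Q, fun x _ i => ?_⟩
    obtain ⟨a, ha, h⟩ := hΦ (x : J) x.2 i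
    refine ⟨a, ha, ?_⟩
    rw [hQ]
    exact h
  refine ⟨hopfOrderOf A ℓ Γ T (fun _ _ => rfl) hℓA hl (fun _ _ => rfl) haddT hnegT, ?_⟩
  -- connectedness
  intro φ hφ x
  obtain ⟨P, hP⟩ := (T.mem_order.1 hφ).2 ()
  rw [hP x rfl, hP 0 rfl]
  refine aeval_sub_val_lt_one P (T.τ_mem x) (T.τ_mem 0) (fun i => ?_)
  have h1 : A.valuation (τ (x : J) i) < 1 := τ_mem _ x.2 i
  have h0 : A.valuation (τ ((0 : Γ) : J) i) < 1 := τ_mem _ (0 : Γ).2 i
  exact lt_of_le_of_lt (Valuation.map_sub _ _ _) (max_lt h1 h0)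

include hA hst in
/-- **FF-F, single centre, inertia-stable `Γ`, with connectedness** (analytic inputs, interface
notion `A0Analytic`). -/
theorem exists_connected_hopfOrder_of_analytic
    (τ_smul : ∀ σ ∈ IA A, ∀ x ∈ Γ, ∀ i, τ (σ • x) i = σ (τ x i))
    (τ_mem : ∀ x ∈ Γ, ∀ i, τ x i ∈ mSet A)
    (τ_inj : ∀ x ∈ Γ, ∀ y ∈ Γ, τ x = τ y → x = y)
    (hadd : ∃ F : (Fin g ⊕ Fin g → Qb) → Fin g → Qb,
      (∀ i, A0Analytic A ℓ (fun w => F w i)) ∧
        ∀ x ∈ Γ, ∀ x' ∈ Γ, τ (x + x') = F (Sum.elim (τ x) (τ x')))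
    (hneg : ∃ F : (Fin g → Qb) → Fin g → Qb,
      (∀ i, A0Analytic A ℓ (fun u => F u i)) ∧ ∀ x ∈ Γ, τ (-x) = F (τ x)) :
    ∃ O : HopfOrder A ℓ (A0 A) (IA A) Γ, IsConnectedOrder O := by
  classical
  letI : Fintype Γ := Fintype.ofFinite Γ
  let U₁ : Finset (Fin g → Qb) := Finset.univ.image fun x : Γ => τ (x : J)
  let U₂ : Finset (Fin g ⊕ Fin g → Qb) :=
    Finset.univ.image fun p : Γ × Γ => Sum.elim (τ (p.1 : J)) (τ (p.2 : J))
  have hU₁ : ∀ u ∈ U₁, ∀ i, u i ∈ mSet A := by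
    intro u hu i
    obtain ⟨x, -, rfl⟩ := Finset.mem_image.1 hu
    exact τ_mem _ x.2 i
  have hU₂ : ∀ u ∈ U₂, ∀ i, u i ∈ mSet A := by
    intro u hu i
    obtain ⟨p, -, rfl⟩ := Finset.mem_image.1 hu
    cases i with
    | inl i => exact τ_mem _ p.1.2 i
    | inr i => exact τ_mem _ p.2.2 i
  have hmem₁ : ∀ x ∈ Γ, τ x ∈ U₁ := fun x hx =>
    Finset.mem_image.2 ⟨⟨x, hx⟩, Finset.mem_univ _, rfl⟩
  have hmem₂ : ∀ x ∈ Γ, ∀ x' ∈ Γ, Sum.elim (τ x) (τ x') ∈ U₂ := fun x hx x' hx' =>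
    Finset.mem_image.2 ⟨(⟨x, hx⟩, ⟨x', hx'⟩), Finset.mem_univ _, rfl⟩
  refine exists_connected_hopfOrder_of_coords A hA Γ hst τ τ_smul τ_mem τ_inj ?_ ?_
  · intro d _ hd
    obtain ⟨F, hF, hFτ⟩ := hadd
    choose P hP using fun i => exists_approx_of_a0Analytic A ℓ hA (hF i) U₂ hU₂ hd
    refine ⟨fun i => MvPolynomial.map (fixedRing A (IA A)).subtype (P i), fun i m => ?_,
      fun x hx x' hx' i => ?_⟩
    · rw [coeff_map]
      exact (mem_fixedRing_iff_mem_A0 A _).1 ((P i).coeff m).2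
    · obtain ⟨a, ha, h⟩ := hP i _ (hmem₂ x hx x' hx')
      refine ⟨a, ha, ?_⟩
      rw [hFτ x hx x' hx', ← aeval_typed]
      exact h
  · intro d _ hd
    obtain ⟨F, hF, hFτ⟩ := hneg
    choose P hP using fun i => exists_approx_of_a0Analytic A ℓ hA (hF i) U₁ hU₁ hd
    refine ⟨fun i => MvPolynomial.map (fixedRing A (IA A)).subtype (P i), fun i m => ?_,
      fun x hx i => ?_⟩
    · rw [coeff_map]
      exact (mem_fixedRing_iff_mem_A0 A _).1 ((P i).coeff m).2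
    · obtain ⟨a, ha, h⟩ := hP i _ (hmem₁ x hx)
      refine ⟨a, ha, ?_⟩
      rw [hFτ x hx, ← aeval_typed]
      exact h

end Main

end Fermat.Agent.S33lib.F

end
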